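import Fermat.Agent.GT.Val.Ind.Main

/-! GT-VAL, layer Ind, file Compose: `BaseData` (level `q` over level `1`) + `MidData` (level `q²` over
level `q`) ⟹ `VTower` and `ResEq` (level `q²` over level `1`).

`intOver_trans`: transitivity of integrality (`isIntegral_trans` / `RingHom.IsIntegralElem`, use
`intOver_iff`). -/

set_option autoImplicit false

namespace Fermat.Agent.GT.Val

open Fermat.Agent.GR.E Fermat.Agent.GS Fermat.Agent.GT

variable {R : Type*} [CommRing R] [IsDomain R] [IsDiscreteValuationRing R]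
variable {F0 F' F : Type*} [Field F0] [Field F'] [Field F] [Algebra R F0] [Algebra R F']
  [Algebra R F] [Algebra F0 F'] [Algebra F' F] [Algebra F0 F] [IsScalarTower R F0 F']
  [IsScalarTower R F' F] [IsScalarTower R F0 F] [IsScalarTower F0 F' F]
variable {ϖ : R} {𝒪0 : ValuationSubring F0} {𝒪'₁ 𝒪'₂ : ValuationSubring F'}
  {𝒪 : Fin 3 → ValuationSubring F} {q : ℕ} {y : F} {a : F'}

omit [IsDomain R] [IsDiscreteValuationRing R] [Algebra R F0] [Algebra R F'] [Algebra R F]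
  [IsScalarTower R F0 F'] [IsScalarTower R F' F] [IsScalarTower R F0 F] in
theorem intOver_trans {S0 : Subring F0} {S' : Subring F'} (h : ∀ x ∈ S', IntOver S0 x) {z : F}
    (hz : IntOver S' z) : IntOver S0 z := by
  rw [intOver_iff] at hz ⊢
  -- algebra structures
  let a1 : Algebra S0 F' := ((algebraMap F0 F').comp S0.subtype).toAlgebra
  let a2 : Algebra S0 F := ((algebraMap F0 F).comp S0.subtype).toAlgebra
  have : IsScalarTower S0 F' F := IsScalarTower.of_algebraMap_eq fun x => by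
    change algebraMap F0 F x = algebraMap F' F (algebraMap F0 F' x)
    exact IsScalarTower.algebraMap_apply F0 F' F x
  -- the integral closure of `S0` in `F'`
  let A := integralClosure S0 F'
  have hle : ∀ x ∈ S', x ∈ A := by
    intro x hx
    have := (intOver_iff S0 x).1 (h x hx)
    exact this
  have hzA : IsIntegral A z := by
    obtain ⟨p, hp, hpz⟩ := hz
    let g : S' →+* A :=
      { toFun := fun x => ⟨(x : F'), hle x x.2⟩
        map_one' := rfl
        map_mul' := fun _ _ => rfl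
        map_zero' := rfl
        map_add' := fun _ _ => rfl }
    refine ⟨p.map g, hp.map g, ?_⟩
    rw [Polynomial.eval₂_map]
    exact hpz
  have : Algebra.IsIntegral S0 A := inferInstance
  exact isIntegral_trans (R := S0) (A := A) z hzA

omit [IsDomain R] [IsDiscreteValuationRing R] [Algebra R F0] [Algebra R F'] [Algebra R F]
  [IsScalarTower R F0 F'] [IsScalarTower R F' F] [IsScalarTower R F0 F] [Algebra F0 F']
  [Algebra F0 F] [IsScalarTower F0 F' F] in
/-- auxiliary: the nonunits correspond under a comap. -/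
theorem Compose_mem_nonunits_iff {V' : ValuationSubring F'} {V : ValuationSubring F}
    (h : ∀ x : F', algebraMap F' F x ∈ V ↔ x ∈ V') (x : F') :
    algebraMap F' F x ∈ V.nonunits ↔ x ∈ V'.nonunits := by
  rw [ValuationSubring.mem_nonunits_iff_or, ValuationSubring.mem_nonunits_iff_or, ← map_inv₀,
    h, map_eq_zero]

theorem vTower_of_midData (B : BaseData ϖ 𝒪0 𝒪'₁ 𝒪'₂) (D : MidData ϖ 𝒪'₁ 𝒪'₂ 𝒪 q y a) :
    VTower ϖ 𝒪0 𝒪 := by
  refine ⟨B.gauss0, ?_, ?_, ⟨q - 1, D.nilp⟩, D.disc⟩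
  · intro i x
    rw [IsScalarTower.algebraMap_apply F0 F' F]
    fin_cases i
    · exact (D.comap0 _).trans (B.comap₁ x)
    · exact (D.comap1 _).trans (B.comap₁ x)
    · exact (D.comap2 _).trans (B.comap₂ x)
  · intro z hz
    refine intOver_trans (S' := 𝒪'₁.toSubring ⊓ 𝒪'₂.toSubring) ?_ (D.integral hz)
    intro x hx
    exact B.integral x hx.1 hx.2

theorem resEq_mid (B : BaseData ϖ 𝒪0 𝒪'₁ 𝒪'₂) (D : MidData ϖ 𝒪'₁ 𝒪'₂ 𝒪 q y a) :
    ResEq 𝒪0 𝒪 1 := by
  intro z hz
  obtain ⟨f, hf₁, hf₂, hzf⟩ := D.res_mid hz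
  obtain ⟨g, hg, hfg⟩ := B.res₁ f hf₁ hf₂
  refine ⟨g, hg, ?_⟩
  have h1 : algebraMap F' F (f - algebraMap F0 F' g) ∈ (𝒪 1).nonunits :=
    (Compose_mem_nonunits_iff D.comap1 _).2 hfg
  have e : z - algebraMap F0 F g
      = (z - algebraMap F' F f) + algebraMap F' F (f - algebraMap F0 F' g) := by
    rw [map_sub, ← IsScalarTower.algebraMap_apply F0 F' F]
    ring
  rw [e]
  exact add_mem hzf h1

theorem resEq_inf (B : BaseData ϖ 𝒪0 𝒪'₁ 𝒪'₂) (D : MidData ϖ 𝒪'₁ 𝒪'₂ 𝒪 q y a) {b : F'}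
    (hb₁ : b ∈ 𝒪'₁) (hb₂ : b ∈ 𝒪'₂) (hyb : y - algebraMap F' F b ∈ (𝒪 0).nonunits) :
    ResEq 𝒪0 𝒪 0 := by
  intro z hz
  obtain ⟨f, hf₁, hf₂, hzf⟩ := D.res_inf hb₁ hb₂ hyb hz
  obtain ⟨g, hg, hfg⟩ := B.res₁ f hf₁ hf₂
  refine ⟨g, hg, ?_⟩
  have h1 : algebraMap F' F (f - algebraMap F0 F' g) ∈ (𝒪 0).nonunits :=
    (Compose_mem_nonunits_iff D.comap0 _).2 hfg
  have e : z - algebraMap F0 F g
      = (z - algebraMap F' F f) + algebraMap F' F (f - algebraMap F0 F' g) := by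
    rw [map_sub, ← IsScalarTower.algebraMap_apply F0 F' F]
    ring
  rw [e]
  exact add_mem hzf h1

end Fermat.Agent.GT.Val
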