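import Fermat.Agent.GT.Val.Defs

/-!
# GT-VAL, abstract layer 2 ("Ind"): definitions

`F' ⊆ F` (`F' = FF L (q M0)`, `F = FF L (q² M0)`, `[F : F'] = q`), `𝒪'₁ = 𝒪'_∞`, `𝒪'₂ = 𝒪'_0` the two
Gauss valuation subrings of `F'`, `𝒪 0 = 𝒪_∞`, `𝒪 1 = 𝒪_mid`, `𝒪 2 = 𝒪_0` the three vertical valuation
subrings of `F`; `y = j(t^{q²})`, `a = j(t)`, `T = y - a`.
`(e, f) = (1, 1), (q - 1, 1)` above `𝒪'₁` and `(1, q)` (purely inseparable) above `𝒪'₂`.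
-/

set_option autoImplicit false

namespace Fermat.Agent.GT.Val

open Fermat.Agent.GR.E Fermat.Agent.GS Fermat.Agent.GT

variable {R : Type*} [CommRing R] {F0 F' F : Type*} [Field F0] [Field F'] [Field F]
  [Algebra R F0] [Algebra R F'] [Algebra R F] [Algebra F0 F'] [Algebra F' F]

/-- `V` is discrete (of rank one) with respect to `ϖ`. -/
def Disc (ϖ : R) (V : ValuationSubring F) : Prop :=
  ∀ x : F, x ≠ 0 → ∃ m : ℕ, x / algebraMap R F ϖ ^ m ∉ V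

/-- Level `q²` over level `q`. -/
structure MidData (ϖ : R) (𝒪'₁ 𝒪'₂ : ValuationSubring F') (𝒪 : Fin 3 → ValuationSubring F) (q : ℕ)
    (y : F) (a : F') : Prop where
  one_lt : 1 < q
  gauss₁ : GaussRing ϖ 𝒪'₁
  gauss₂ : GaussRing ϖ 𝒪'₂
  disc₁ : Disc ϖ 𝒪'₁
  disc₂ : Disc ϖ 𝒪'₂
  comap0 : ∀ x : F', algebraMap F' F x ∈ 𝒪 0 ↔ x ∈ 𝒪'₁
  comap1 : ∀ x : F', algebraMap F' F x ∈ 𝒪 1 ↔ x ∈ 𝒪'₁
  comap2 : ∀ x : F', algebraMap F' F x ∈ 𝒪 2 ↔ x ∈ 𝒪'₂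
  gauss0 : GaussRing ϖ (𝒪 0)
  gauss2 : GaussRing ϖ (𝒪 2)
  /-- `1, y, ..., y^(q-1)` generate `F` over `F'` -/
  span : ∀ z : F, ∃ P : Polynomial F', P.natDegree < q ∧ Polynomial.aeval y P = z
  a_mem₁ : a ∈ 𝒪'₁
  a_mem₂ : a ∈ 𝒪'₂
  T_ne : y - algebraMap F' F a ≠ 0
  /-- `T = y - a` is a unit of `𝒪_∞` -/
  T_mem0 : y - algebraMap F' F a ∈ 𝒪 0
  T_inv_mem0 : (y - algebraMap F' F a)⁻¹ ∈ 𝒪 0
  /-- `T ∈ 𝔪(𝒪_mid)` and `T^(q-1) / ϖ` is a unit of `𝒪_mid` -/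
  T_mid : y - algebraMap F' F a ∈ (𝒪 1).nonunits
  T_ram : algebraMap R F ϖ / (y - algebraMap F' F a) ^ (q - 1) ∈ 𝒪 1
  T_ram' : (y - algebraMap F' F a) ^ (q - 1) / algebraMap R F ϖ ∈ 𝒪 1
  y_mem2 : y ∈ 𝒪 2
  /-- the residues of `1, y, ..., y^(q-1)` at `𝒪_0` are linearly independent over the residue field
  of `𝒪'_0` -/
  insep : ∀ P : Polynomial F', P.natDegree < q → (∀ k, P.coeff k ∈ 𝒪'₂) →
    Polynomial.aeval y P ∈ (𝒪 2).nonunits → ∀ k, P.coeff k ∈ 𝒪'₂.nonunits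

/-- Level `q` over level `1` (what is consumed from GS: `GS.TowerData`). -/
structure BaseData (ϖ : R) (𝒪0 : ValuationSubring F0) (𝒪'₁ 𝒪'₂ : ValuationSubring F') : Prop where
  gauss0 : GaussRing ϖ 𝒪0
  comap₁ : ∀ x : F0, algebraMap F0 F' x ∈ 𝒪'₁ ↔ x ∈ 𝒪0
  comap₂ : ∀ x : F0, algebraMap F0 F' x ∈ 𝒪'₂ ↔ x ∈ 𝒪0
  integral : ∀ z : F', z ∈ 𝒪'₁ → z ∈ 𝒪'₂ → IntOver 𝒪0.toSubring z
  res₁ : ∀ z : F', z ∈ 𝒪'₁ → z ∈ 𝒪'₂ → ∃ f ∈ 𝒪0, z - algebraMap F0 F' f ∈ 𝒪'₁.nonunits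

end Fermat.Agent.GT.Val
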