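import Fermat.Agent.GT.Val.Ind.Defs
import Fermat.Agent.GT.Val.Tower.Basic

/-! GT-VAL, layer Ind, file Ram: independence modulo `ϖ` for the pair (unramified, totally ramified).

`z = ∑_{k ≤ e} c_k T^k`, `c_k ∈ 𝒪'`, `z ∈ ϖ 𝒪a ∩ ϖ 𝒪b`.  By induction on `k < e`: `c_k ∈ ϖ 𝒪'`.  Indeed if
`c_i ∈ ϖ 𝒪'` for `i < k` then `c_k T^k = z - ∑_{i<k} c_i T^i - ∑_{i>k} c_i T^i ∈ ϖ 𝒪b + T^(k+1) 𝒪b ⊆
T^(k+1) 𝒪b` (as `ϖ ∈ T^e 𝒪b`, `k + 1 ≤ e`), so `c_k ∈ T 𝒪b ⊆ 𝔪(𝒪b)`, so `c_k ∈ 𝔪(𝒪') = ϖ 𝒪'`.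
Finally `c_e T^e = z - ∑_{i<e} c_i T^i ∈ ϖ 𝒪a` and `T` is a unit of `𝒪a`. -/

set_option autoImplicit false

namespace Fermat.Agent.GT.Val

open Fermat.Agent.GR.E Fermat.Agent.GS Fermat.Agent.GT

variable {R : Type*} [CommRing R] [IsDomain R] [IsDiscreteValuationRing R]
variable {F' F : Type*} [Field F'] [Field F] [Algebra R F'] [Algebra R F] [Algebra F' F]
  [IsScalarTower R F' F]
variable {ϖ : R}

theorem ind_ram {𝒪' : ValuationSubring F'} {𝒪a 𝒪b : ValuationSubring F} (hG : GaussRing ϖ 𝒪')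
    (ha : ∀ x : F', algebraMap F' F x ∈ 𝒪a ↔ x ∈ 𝒪')
    (hb : ∀ x : F', algebraMap F' F x ∈ 𝒪b ↔ x ∈ 𝒪')
    {T : F} (hT0 : T ≠ 0) (hTa : T ∈ 𝒪a) (hTa' : T⁻¹ ∈ 𝒪a) (hTb : T ∈ 𝒪b.nonunits) {e : ℕ}
    (hTe : algebraMap R F ϖ / T ^ e ∈ 𝒪b)
    (P : Polynomial F') (hP : P.natDegree < e + 1) (hc : ∀ k, P.coeff k ∈ 𝒪')
    (hza : Polynomial.aeval T P / algebraMap R F ϖ ∈ 𝒪a)
    (hzb : Polynomial.aeval T P / algebraMap R F ϖ ∈ 𝒪b) :
    ∀ k, P.coeff k / algebraMap R F' ϖ ∈ 𝒪' := by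
  set π := algebraMap R F ϖ with hπ
  set π' := algebraMap R F' ϖ with hπ'
  have hππ : algebraMap F' F π' = π := (IsScalarTower.algebraMap_apply R F' F ϖ).symm
  have hπ'0 : π' ≠ 0 := hG.ne_zero
  have hπ0 : π ≠ 0 := by
    rw [← hππ]
    exact (map_ne_zero _).2 hπ'0
  have hz : Polynomial.aeval T P =
      ∑ i ∈ Finset.range (e + 1), algebraMap F' F (P.coeff i) * T ^ i := by
    rw [Polynomial.aeval_eq_sum_range' hP T]
    exact Finset.sum_congr rfl fun i _ => Algebra.smul_def _ _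
  have hTbm : T ∈ 𝒪b := ValuationSubring.nonunits_subset hTb
  have hcb : ∀ i, algebraMap F' F (P.coeff i) ∈ 𝒪b := fun i => (hb _).2 (hc i)
  have step : ∀ k, k < e → (∀ i < k, P.coeff i / π' ∈ 𝒪') → P.coeff k / π' ∈ 𝒪' := by
    intro k hk ih
    have hmem : k ∈ Finset.range (e + 1) := Finset.mem_range.2 (by omega)
    have h1 := Finset.add_sum_erase (Finset.range (e + 1))
      (fun i => algebraMap F' F (P.coeff i) * T ^ i) hmem
    have hTe' : T ^ e = T ^ (e - (k + 1)) * T ^ (k + 1) := by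
      rw [← pow_add]
      congr 1
      omega
    have h2 : algebraMap F' F (P.coeff k) / T = Polynomial.aeval T P / T ^ (k + 1) -
        ∑ i ∈ (Finset.range (e + 1)).erase k,
          algebraMap F' F (P.coeff i) * T ^ i / T ^ (k + 1) := by
      rw [← Finset.sum_div, hz, ← h1]
      generalize (∑ i ∈ (Finset.range (e + 1)).erase k, algebraMap F' F (P.coeff i) * T ^ i) = s0
      field_simp
      ring
    have h3 : Polynomial.aeval T P / T ^ (k + 1) ∈ 𝒪b := by
      have e1 : Polynomial.aeval T P / T ^ (k + 1) =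
          (Polynomial.aeval T P / π) * (π / T ^ e) * T ^ (e - (k + 1)) := by
        rw [hTe']
        field_simp
      rw [e1]
      exact mul_mem (mul_mem hzb hTe) (pow_mem hTbm _)
    have h4 : ∀ i ∈ (Finset.range (e + 1)).erase k,
        algebraMap F' F (P.coeff i) * T ^ i / T ^ (k + 1) ∈ 𝒪b := by
      intro i hi
      rcases lt_or_gt_of_ne (Finset.ne_of_mem_erase hi) with hik | hik
      · have h5 : algebraMap F' F (P.coeff i / π') ∈ 𝒪b := (hb _).2 (ih i hik)
        have e1 : algebraMap F' F (P.coeff i) * T ^ i / T ^ (k + 1) =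
            algebraMap F' F (P.coeff i / π') * T ^ i * (π / T ^ e) * T ^ (e - (k + 1)) := by
          rw [map_div₀, hππ, hTe']
          field_simp
        rw [e1]
        exact mul_mem (mul_mem (mul_mem h5 (pow_mem hTbm _)) hTe) (pow_mem hTbm _)
      · have e2 : T ^ i = T ^ (i - (k + 1)) * T ^ (k + 1) := by
          rw [← pow_add]
          congr 1
          omega
        have e1 : algebraMap F' F (P.coeff i) * T ^ i / T ^ (k + 1) =
            algebraMap F' F (P.coeff i) * T ^ (i - (k + 1)) := by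
          rw [e2]
          field_simp
        rw [e1]
        exact mul_mem (hcb i) (pow_mem hTbm _)
    have h6 : algebraMap F' F (P.coeff k) / T ∈ 𝒪b := by
      rw [h2]
      exact sub_mem h3 (sum_mem h4)
    have h7 : algebraMap F' F (P.coeff k) ∈ 𝒪b.nonunits := by
      have e1 : algebraMap F' F (P.coeff k) = (algebraMap F' F (P.coeff k) / T) * T := by
        field_simp
      rw [e1]
      exact basic_mul_mem_nonunits h6 hTb
    have h8 : P.coeff k ∈ 𝒪'.nonunits := by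
      rw [ValuationSubring.mem_nonunits_iff_or] at h7 ⊢
      rwa [← map_inv₀, hb, map_eq_zero] at h7
    exact (gaussRing_mem_nonunits_iff hG _).1 h8
  have hlt : ∀ k, k < e → P.coeff k / π' ∈ 𝒪' := by
    intro k
    induction k using Nat.strong_induction_on with
    | _ k ih => exact fun hk => step k hk fun i hi => ih i hi (by omega)
  intro k
  rcases lt_trichotomy k e with hk | hk | hk
  · exact hlt k hk
  · subst hk
    have h1 := Finset.sum_range_succ (fun i => algebraMap F' F (P.coeff i) * T ^ i) k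
    have h2 : algebraMap F' F (P.coeff k / π') = (Polynomial.aeval T P / π -
        ∑ i ∈ Finset.range k, algebraMap F' F (P.coeff i / π') * T ^ i) * T⁻¹ ^ k := by
      have e1 : ∑ i ∈ Finset.range k, algebraMap F' F (P.coeff i / π') * T ^ i =
          (∑ i ∈ Finset.range k, algebraMap F' F (P.coeff i) * T ^ i) / π := by
        rw [Finset.sum_div]
        refine Finset.sum_congr rfl fun i _ => ?_
        rw [map_div₀, hππ]
        ring
      rw [e1, hz, h1, map_div₀, hππ, inv_pow]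
      generalize (∑ i ∈ Finset.range k, algebraMap F' F (P.coeff i) * T ^ i) = s0
      field_simp
      ring
    rw [← ha, h2]
    refine mul_mem (sub_mem hza (sum_mem fun i hi => ?_)) (pow_mem hTa' _)
    exact mul_mem ((ha _).2 (hlt i (Finset.mem_range.1 hi))) (pow_mem hTa _)
  · rw [Polynomial.coeff_eq_zero_of_natDegree_lt (by omega), zero_div]
    exact 𝒪'.zero_mem

end Fermat.Agent.GT.Val
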