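import Fermat.Agent.GT.Val.Ind.Defs

/-! GT-VAL, layer Ind, file Shift: Taylor shift of polynomials with coefficients in a subring. -/

set_option autoImplicit false

namespace Fermat.Agent.GT.Val

variable {F' F : Type*} [Field F'] [Field F] [Algebra F' F]

theorem coeff_taylor_mem (S : Subring F') {a : F'} (ha : a ∈ S) {P : Polynomial F'}
    (hP : ∀ k, P.coeff k ∈ S) : ∀ k, (Polynomial.taylor a P).coeff k ∈ S := by
  intro k
  have hlifts : P ∈ Polynomial.lifts S.subtype :=
    (Polynomial.lifts_iff_coeff_lifts P).mpr fun k => ⟨⟨_, hP k⟩, rfl⟩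
  obtain ⟨P', rfl⟩ := hlifts
  have h : Polynomial.taylor a (P'.map S.subtype) =
      (Polynomial.taylor (⟨a, ha⟩ : S) P').map S.subtype := by
    rw [Polynomial.map_taylor]
    rfl
  show (Polynomial.taylor a (P'.map S.subtype)).coeff k ∈ S
  rw [h, Polynomial.coeff_map]
  exact ((Polynomial.taylor (⟨a, ha⟩ : S) P').coeff k).2

theorem coeff_mem_of_taylor (S : Subring F') {a : F'} (ha : a ∈ S) {P : Polynomial F'}
    (hP : ∀ k, (Polynomial.taylor a P).coeff k ∈ S) : ∀ k, P.coeff k ∈ S := by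
  have h := coeff_taylor_mem S (S.neg_mem ha) hP
  rwa [Polynomial.taylor_taylor, neg_add_cancel, Polynomial.taylor_zero] at h

theorem aeval_taylor' (a : F') (T : F) (P : Polynomial F') :
    Polynomial.aeval T (Polynomial.taylor a P) = Polynomial.aeval (T + algebraMap F' F a) P := by
  rw [Polynomial.taylor_apply, Polynomial.aeval_comp]
  simp

theorem natDegree_taylor' (a : F') (P : Polynomial F') :
    (Polynomial.taylor a P).natDegree = P.natDegree := by
  exact Polynomial.natDegree_taylor P a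

/-- evaluation of a polynomial with coefficients in `S` at a point of `S`. -/
theorem eval_mem_of_coeff_mem (S : Subring F') {a : F'} (ha : a ∈ S) {P : Polynomial F'}
    (hP : ∀ k, P.coeff k ∈ S) : P.eval a ∈ S := by
  rw [Polynomial.eval_eq_sum_range]
  exact S.sum_mem fun k _ => S.mul_mem (hP k) (S.pow_mem ha k)

/-- `P(y) - P(b) ∈ (y - b) V` for a polynomial with coefficients in `V`. -/
theorem aeval_sub_eval_mem (V : ValuationSubring F) {y : F} {b : F'} (hy : y ∈ V)
    (hb : algebraMap F' F b ∈ V) {P : Polynomial F'} (hP : ∀ k, algebraMap F' F (P.coeff k) ∈ V)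
    (h : y - algebraMap F' F b ∈ V.nonunits) :
    Polynomial.aeval y P - algebraMap F' F (P.eval b) ∈ V.nonunits := by
  have hlifts : P.map (algebraMap F' F) ∈ Polynomial.lifts V.subtype :=
    (Polynomial.lifts_iff_coeff_lifts _).mpr fun k =>
      ⟨⟨_, hP k⟩, by rw [Polynomial.coeff_map]; rfl⟩
  obtain ⟨Q, hQ⟩ := hlifts
  replace hQ : Q.map V.subtype = P.map (algebraMap F' F) := hQ
  have h1 : Polynomial.aeval y P = V.subtype (Q.eval ⟨y, hy⟩) := by
    rw [Polynomial.aeval_def, Polynomial.eval₂_eq_eval_map, ← hQ, ← Polynomial.eval_map_apply]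
    rfl
  have h2 : algebraMap F' F (P.eval b) = V.subtype (Q.eval ⟨_, hb⟩) := by
    rw [← Polynomial.eval_map_apply, ← Polynomial.eval_map_apply, hQ]
    rfl
  obtain ⟨c, hc⟩ := Polynomial.sub_dvd_eval_sub (⟨y, hy⟩ : V) ⟨_, hb⟩ Q
  rw [h1, h2, ← map_sub, hc]
  have h3 : ((⟨y, hy⟩ : V) - ⟨_, hb⟩) ∈ IsLocalRing.maximalIdeal V :=
    ValuationSubring.coe_mem_nonunits_iff.1 h
  exact ValuationSubring.coe_mem_nonunits_iff.2 (Ideal.mul_mem_right c _ h3)

end Fermat.Agent.GT.Val
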