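import Fermat.Agent.GT.Val.Ind.Scale
import Fermat.Agent.GT.Val.Ind.Ram
import Fermat.Agent.GT.Val.Ind.Shift

/-! GT-VAL, layer Ind, file Main: THE (Ind) LEMMA and its consequences.

`ind₁`: `P(y) = (taylor a P)(T)`; `ind_scale` (family `![𝒪 0, 𝒪 1]`, `d = q`) + `ind_ram` (`e = q - 1`) show
that the coefficients of `taylor a P` lie in `𝒪'₁`; `coeff_mem_of_taylor`.
`ind₂`: `ind_scale` (family `![𝒪 2]`) + `D.insep` (`𝔪 = ϖ 𝒪` in the Gauss rings `𝒪 2`, `𝒪'₂`).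
`integral`: `B = ⋂ 𝒪 i` is a ring, `S = 𝒪'₁ ∩ 𝒪'₂`; by `span` and `ind` `B = ∑_{k<q} S y^k` is a finitely
generated `S`-module (`y ∈ B`), so every element of `B` is integral over `S`
(`IsIntegral.of_mem_of_fg`).  NO modular polynomial is needed.
`res_mid`: `z = P(y) ≡ P(a)` since `y - a = T ∈ 𝔪(𝒪 1)` (`aeval_sub_eval_mem`).
`unif_mid`: `E = ϖ / T^(q-1)` is a unit of `𝒪 1` and lies in `𝔪(𝒪 0)`; for `x ∈ 𝔪(𝒪 1)`, `x E^m ∈ 𝒪 0` for `m`
large (`disc`); write `x E^m = Q(T)`, `Q = taylor a P` with coefficients `c_k ∈ 𝒪'₁` (as in `ind₁`, only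
`𝒪 0` and `𝒪 1` are used); `c_0 ∈ 𝔪(𝒪 1) ∩ F' = ϖ 𝒪'₁ ⊆ T 𝒪 1`; so `x E^m / T ∈ 𝒪 1`. -/

set_option autoImplicit false

namespace Fermat.Agent.GT.Val

open Fermat.Agent.GR.E Fermat.Agent.GS Fermat.Agent.GT

variable {R : Type*} [CommRing R] [IsDomain R] [IsDiscreteValuationRing R]
variable {F' F : Type*} [Field F'] [Field F] [Algebra R F'] [Algebra R F] [Algebra F' F]
  [IsScalarTower R F' F]
variable {ϖ : R}

variable {𝒪'₁ 𝒪'₂ : ValuationSubring F'} {𝒪 : Fin 3 → ValuationSubring F} {q : ℕ} {y : F} {a : F'}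

theorem MidData.y_mem (D : MidData ϖ 𝒪'₁ 𝒪'₂ 𝒪 q y a) : ∀ i, y ∈ 𝒪 i := by
  have hy : y = (y - algebraMap F' F a) + algebraMap F' F a := by ring
  intro i
  fin_cases i
  · show y ∈ 𝒪 0
    rw [hy]
    exact (𝒪 0).add_mem _ _ D.T_mem0 ((D.comap0 a).mpr D.a_mem₁)
  · show y ∈ 𝒪 1
    rw [hy]
    exact (𝒪 1).add_mem _ _ ((𝒪 1).nonunits_subset D.T_mid) ((D.comap1 a).mpr D.a_mem₁)
  · exact D.y_mem2

theorem MidData.Main_unif_mem (D : MidData ϖ 𝒪'₁ 𝒪'₂ 𝒪 q y a) : ∀ i, algebraMap R F ϖ ∈ 𝒪 i := by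
  intro i
  rw [IsScalarTower.algebraMap_apply R F' F]
  fin_cases i
  · exact (D.comap0 _).mpr D.gauss₁.mem
  · exact (D.comap1 _).mpr D.gauss₁.mem
  · exact (D.comap2 _).mpr D.gauss₂.mem

/-- only `𝒪 0` and `𝒪 1` are used. -/
theorem MidData.ind₁ (D : MidData ϖ 𝒪'₁ 𝒪'₂ 𝒪 q y a) {P : Polynomial F'} (hP : P.natDegree < q)
    (h0 : Polynomial.aeval y P ∈ 𝒪 0) (h1 : Polynomial.aeval y P ∈ 𝒪 1) :
    ∀ k, P.coeff k ∈ 𝒪'₁ := by
  have hq : q = (q - 1) + 1 := by have := D.one_lt; omega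
  have hev : Polynomial.aeval (y - algebraMap F' F a) (Polynomial.taylor a P) =
      Polynomial.aeval y P := by
    rw [aeval_taylor', sub_add_cancel]
  have key : ∀ k, (Polynomial.taylor a P).coeff k ∈ 𝒪'₁ := by
    refine ind_scale (ϖ := ϖ) (![𝒪 0, 𝒪 1] : Fin 2 → ValuationSubring F) D.gauss₁ D.disc₁ ?_
      (y - algebraMap F' F a) q ?_ (Polynomial.taylor a P) ?_ ?_
    · intro v
      fin_cases v
      · exact D.Main_unif_mem 0
      · exact D.Main_unif_mem 1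
    · intro Q hQ hc hz
      refine ind_ram D.gauss₁ D.comap0 D.comap1 D.T_ne D.T_mem0 D.T_inv_mem0 D.T_mid D.T_ram Q
        (by omega) hc (hz 0) (hz 1)
    · rw [natDegree_taylor']
      exact hP
    · intro v
      rw [hev]
      fin_cases v
      · exact h0
      · exact h1
  exact coeff_mem_of_taylor 𝒪'₁.toSubring D.a_mem₁ key

theorem MidData.ind₂ (D : MidData ϖ 𝒪'₁ 𝒪'₂ 𝒪 q y a) {P : Polynomial F'} (hP : P.natDegree < q)
    (h2 : Polynomial.aeval y P ∈ 𝒪 2) : ∀ k, P.coeff k ∈ 𝒪'₂ := by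
  refine ind_scale (ϖ := ϖ) (fun _ : Unit => 𝒪 2) D.gauss₂ D.disc₂ (fun _ => D.Main_unif_mem 2)
    y q ?_ P hP (fun _ => h2)
  intro Q hQ hc hz k
  rw [← gaussRing_mem_nonunits_iff D.gauss₂]
  exact D.insep Q hQ hc ((gaussRing_mem_nonunits_iff D.gauss2 _).mpr (hz ())) k

/-- `⋂ 𝒪 i` is integral over `𝒪'₁ ∩ 𝒪'₂`. -/
theorem MidData.integral (D : MidData ϖ 𝒪'₁ 𝒪'₂ 𝒪 q y a) {z : F} (hz : ∀ i, z ∈ 𝒪 i) :
    IntOver (𝒪'₁.toSubring ⊓ 𝒪'₂.toSubring) z := by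
  classical
  rw [intOver_iff]
  letI : Algebra (𝒪'₁.toSubring ⊓ 𝒪'₂.toSubring : Subring F') F :=
    ((algebraMap F' F).comp (𝒪'₁.toSubring ⊓ 𝒪'₂.toSubring : Subring F').subtype).toAlgebra
  have hsm : ∀ (c : (𝒪'₁.toSubring ⊓ 𝒪'₂.toSubring : Subring F')) (x : F),
      c • x = algebraMap F' F (c : F') * x := fun c x => rfl
  let B : Subalgebra (𝒪'₁.toSubring ⊓ 𝒪'₂.toSubring : Subring F') F :=
    { carrier := {x | ∀ i, x ∈ 𝒪 i}
      mul_mem' := fun hx hy i => (𝒪 i).mul_mem _ _ (hx i) (hy i)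
      add_mem' := fun hx hy i => (𝒪 i).add_mem _ _ (hx i) (hy i)
      algebraMap_mem' := by
        rintro ⟨c, hc1, hc2⟩ i
        show algebraMap F' F c ∈ 𝒪 i
        fin_cases i
        · exact (D.comap0 c).mpr hc1
        · exact (D.comap1 c).mpr hc1
        · exact (D.comap2 c).mpr hc2 }
  have hB : ∀ x : F, x ∈ B ↔ ∀ i, x ∈ 𝒪 i := fun x => Iff.rfl
  have hfg : (Subalgebra.toSubmodule B).FG := by
    refine ⟨(Finset.range q).image (fun k => y ^ k), le_antisymm ?_ ?_⟩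
    · rw [Submodule.span_le]
      intro x hx
      rw [Finset.coe_image] at hx
      obtain ⟨k, -, rfl⟩ := hx
      exact fun i => (𝒪 i).pow_mem (D.y_mem i) k
    · intro x hx
      have hx' : ∀ i, x ∈ 𝒪 i := hx
      obtain ⟨P, hP, rfl⟩ := D.span x
      have h1 := D.ind₁ hP (hx' 0) (hx' 1)
      have h2 := D.ind₂ hP (hx' 2)
      rw [Polynomial.aeval_eq_sum_range' hP]
      refine Submodule.sum_mem _ fun k hk => ?_
      have h3 : P.coeff k • y ^ k =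
          (⟨P.coeff k, h1 k, h2 k⟩ : (𝒪'₁.toSubring ⊓ 𝒪'₂.toSubring : Subring F')) • y ^ k := by
        rw [hsm, Algebra.smul_def]
      rw [h3]
      refine Submodule.smul_mem _ _ (Submodule.subset_span ?_)
      rw [Finset.coe_image]
      exact ⟨k, hk, rfl⟩
  exact IsIntegral.of_mem_of_fg B hfg z hz

-- ===== PART B (task 555, helper95) =====

omit [IsDomain R] [IsDiscreteValuationRing R] [Algebra R F'] [Algebra R F]
  [IsScalarTower R F' F] in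
/-- auxiliary: the nonunits correspond under a comap. -/
theorem Main_mem_nonunits_iff {V' : ValuationSubring F'} {V : ValuationSubring F}
    (h : ∀ x : F', algebraMap F' F x ∈ V ↔ x ∈ V') (x : F') :
    algebraMap F' F x ∈ V.nonunits ↔ x ∈ V'.nonunits := by
  rw [ValuationSubring.mem_nonunits_iff_or, ValuationSubring.mem_nonunits_iff_or, ← map_inv₀,
    h, map_eq_zero]

omit [IsDomain R] [IsDiscreteValuationRing R] [Algebra R F'] [Algebra R F]
  [IsScalarTower R F' F] in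
/-- auxiliary: a polynomial with coefficients in `V` evaluated at a point of `V`. -/
theorem Main_aeval_mem (V : ValuationSubring F) {t : F} (ht : t ∈ V) {P : Polynomial F'}
    (hP : ∀ k, algebraMap F' F (P.coeff k) ∈ V) : Polynomial.aeval t P ∈ V := by
  rw [Polynomial.aeval_eq_sum_range]
  refine sum_mem fun k _ => ?_
  rw [Algebra.smul_def]
  exact mul_mem (hP k) (pow_mem ht k)

omit [IsDomain R] [IsDiscreteValuationRing R] [Algebra R F'] [Algebra R F]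
  [IsScalarTower R F' F] [Field F'] [Algebra F' F] in
/-- auxiliary: `𝔪 V ⊆ 𝔪`. -/
theorem Main_nonunits_mul_mem (V : ValuationSubring F) {x t : F} (hx : x ∈ V.nonunits)
    (ht : t ∈ V) : x * t ∈ V.nonunits := by
  rw [ValuationSubring.mem_nonunits_iff] at hx ⊢
  rw [map_mul]
  exact mul_lt_one_of_lt_of_le hx ((V.valuation_le_one_iff t).2 ht)

theorem MidData.res_mid (D : MidData ϖ 𝒪'₁ 𝒪'₂ 𝒪 q y a) {z : F} (hz : ∀ i, z ∈ 𝒪 i) :
    ∃ f : F', f ∈ 𝒪'₁ ∧ f ∈ 𝒪'₂ ∧ z - algebraMap F' F f ∈ (𝒪 1).nonunits := by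
  obtain ⟨P, hP, rfl⟩ := D.span z
  have h1 := D.ind₁ hP (hz 0) (hz 1)
  have h2 := D.ind₂ hP (hz 2)
  exact ⟨P.eval a, eval_mem_of_coeff_mem 𝒪'₁.toSubring D.a_mem₁ h1,
    eval_mem_of_coeff_mem 𝒪'₂.toSubring D.a_mem₂ h2,
    aeval_sub_eval_mem (𝒪 1) (D.y_mem 1) ((D.comap1 _).2 D.a_mem₁)
      (fun k => (D.comap1 _).2 (h1 k)) D.T_mid⟩

theorem MidData.res_inf (D : MidData ϖ 𝒪'₁ 𝒪'₂ 𝒪 q y a) {b : F'} (hb₁ : b ∈ 𝒪'₁) (hb₂ : b ∈ 𝒪'₂)
    (hyb : y - algebraMap F' F b ∈ (𝒪 0).nonunits) {z : F} (hz : ∀ i, z ∈ 𝒪 i) :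
    ∃ f : F', f ∈ 𝒪'₁ ∧ f ∈ 𝒪'₂ ∧ z - algebraMap F' F f ∈ (𝒪 0).nonunits := by
  obtain ⟨P, hP, rfl⟩ := D.span z
  have h1 := D.ind₁ hP (hz 0) (hz 1)
  have h2 := D.ind₂ hP (hz 2)
  exact ⟨P.eval b, eval_mem_of_coeff_mem 𝒪'₁.toSubring hb₁ h1,
    eval_mem_of_coeff_mem 𝒪'₂.toSubring hb₂ h2,
    aeval_sub_eval_mem (𝒪 0) (D.y_mem 0) ((D.comap0 _).2 hb₁)
      (fun k => (D.comap0 _).2 (h1 k)) hyb⟩

theorem MidData.isAlgebraic (D : MidData ϖ 𝒪'₁ 𝒪'₂ 𝒪 q y a) : Algebra.IsAlgebraic F' F := by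
  have hy : IsIntegral F' y := by
    obtain ⟨P, hP, hPy⟩ := D.span (y ^ q)
    have hmon : (Polynomial.X ^ q - P).Monic := by
      apply Polynomial.monic_X_pow_sub
      exact lt_of_le_of_lt Polynomial.degree_le_natDegree (by exact_mod_cast hP)
    refine ⟨Polynomial.X ^ q - P, hmon, ?_⟩
    rw [← Polynomial.aeval_def, map_sub, map_pow, Polynomial.aeval_X, hPy, sub_self]
  have hall : ∀ z : F, IsIntegral F' z := by
    intro z
    obtain ⟨P, -, rfl⟩ := D.span z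
    have h1 : Polynomial.aeval y P ∈ Algebra.adjoin F' ({y} : Set F) :=
      Polynomial.aeval_mem_adjoin_singleton F' y
    have h2 : Algebra.adjoin F' ({y} : Set F) ≤ integralClosure F' F := by
      apply Algebra.adjoin_le
      intro s hs
      rw [Set.mem_singleton_iff.1 hs]
      exact hy
    exact h2 h1
  exact ⟨fun z => (hall z).isAlgebraic⟩

theorem MidData.disc (D : MidData ϖ 𝒪'₁ 𝒪'₂ 𝒪 q y a) : ∀ i, Disc ϖ (𝒪 i) := by
  intro i
  fin_cases i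
  · exact disc_of_algebraic D.gauss₁ D.disc₁ D.comap0 D.isAlgebraic
  · exact disc_of_algebraic D.gauss₁ D.disc₁ D.comap1 D.isAlgebraic
  · exact disc_of_algebraic D.gauss₂ D.disc₂ D.comap2 D.isAlgebraic

/-- `T` is a uniformizer of `𝒪_mid`. -/
theorem MidData.unif_mid (D : MidData ϖ 𝒪'₁ 𝒪'₂ 𝒪 q y a) :
    ∀ x ∈ (𝒪 1).nonunits, x / (y - algebraMap F' F a) ∈ 𝒪 1 := by
  intro x hx
  have hϖ0 : algebraMap R F ϖ ≠ 0 := D.gauss0.ne_zero
  have hT0 := D.T_ne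
  have hT1 : y - algebraMap F' F a ∈ 𝒪 1 := ValuationSubring.nonunits_subset D.T_mid
  obtain ⟨q', rfl⟩ : ∃ q', q = q' + 2 := ⟨q - 2, by have := D.one_lt; omega⟩
  have hq1 : q' + 2 - 1 = q' + 1 := by omega
  have hram := D.T_ram
  have hram' := D.T_ram'
  have hTinv0 := D.T_inv_mem0
  have hTmid := D.T_mid
  rw [hq1] at hram hram'
  generalize hT : y - algebraMap F' F a = T at *
  generalize hπ : algebraMap R F ϖ = π at *
  obtain ⟨m, hm⟩ := (D.disc 0).exists_pow_mul_mem x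
  rw [hπ] at hm
  -- `w = x E ^ m`
  set w : F := x * (π / T ^ (q' + 1)) ^ m with hw
  have hw0 : w ∈ 𝒪 0 := by
    have e : w = π ^ m * x * (T⁻¹) ^ ((q' + 1) * m) := by
      rw [hw, div_pow, inv_pow, ← pow_mul]
      field_simp
    rw [e]
    exact mul_mem hm (pow_mem hTinv0 _)
  have hw1 : w ∈ (𝒪 1).nonunits := Main_nonunits_mul_mem _ hx (pow_mem hram m)
  obtain ⟨P, hP, hPw⟩ := D.span w
  have hc := D.ind₁ hP (by rw [hPw]; exact hw0)
    (by rw [hPw]; exact ValuationSubring.nonunits_subset hw1)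
  have hQ := coeff_taylor_mem 𝒪'₁.toSubring D.a_mem₁ hc
  have hQw : Polynomial.aeval T (Polynomial.taylor a P) = w := by
    rw [aeval_taylor', ← hT, sub_add_cancel, hPw]
  set Q := Polynomial.taylor a P with hQdef
  have hdiv : Polynomial.aeval T Q.divX ∈ 𝒪 1 := by
    refine Main_aeval_mem _ hT1 fun k => ?_
    rw [Polynomial.coeff_divX]
    exact (D.comap1 _).2 (hQ _)
  have hsplit : w = Polynomial.aeval T Q.divX * T + algebraMap F' F (Q.coeff 0) := by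
    conv_lhs => rw [← hQw, ← Polynomial.divX_mul_X_add Q]
    rw [map_add, map_mul, Polynomial.aeval_X, Polynomial.aeval_C]
  have hc0 : algebraMap F' F (Q.coeff 0) ∈ (𝒪 1).nonunits := by
    have e : algebraMap F' F (Q.coeff 0) = w - T * Polynomial.aeval T Q.divX := by
      rw [hsplit]; ring
    rw [e]
    exact sub_mem hw1 (Main_nonunits_mul_mem _ hTmid hdiv)
  have hc0' : Q.coeff 0 / algebraMap R F' ϖ ∈ 𝒪'₁ :=
    (gaussRing_mem_nonunits_iff D.gauss₁ _).1 ((Main_mem_nonunits_iff D.comap1 _).1 hc0)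
  have hc0'' : algebraMap F' F (Q.coeff 0) / π ∈ 𝒪 1 := by
    have := (D.comap1 _).2 hc0'
    rwa [map_div₀, ← IsScalarTower.algebraMap_apply R F' F, hπ] at this
  have hπT : π / T ∈ 𝒪 1 := by
    have e : π / T = π / T ^ (q' + 1) * T ^ q' := by
      rw [pow_succ]
      field_simp
    rw [e]
    exact mul_mem hram (pow_mem hT1 _)
  have hwT : w / T ∈ 𝒪 1 := by
    have e : w / T = Polynomial.aeval T Q.divX + algebraMap F' F (Q.coeff 0) / π * (π / T) := by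
      rw [hsplit]
      field_simp
    rw [e]
    exact add_mem hdiv (mul_mem hc0'' hπT)
  have e : x / T = w / T * (T ^ (q' + 1) / π) ^ m := by
    rw [hw, div_pow, div_pow]
    field_simp
  rw [e]
  exact mul_mem hwT (pow_mem hram' m)

theorem MidData.nilp (D : MidData ϖ 𝒪'₁ 𝒪'₂ 𝒪 q y a) :
    ∀ i, ∀ x ∈ (𝒪 i).nonunits, x ^ (q - 1) / algebraMap R F ϖ ∈ 𝒪 i := by
  have key : ∀ V : ValuationSubring F, GaussRing ϖ V → ∀ x ∈ V.nonunits,
      x ^ (q - 1) / algebraMap R F ϖ ∈ V := by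
    intro V hV x hx
    have h1 := (gaussRing_mem_nonunits_iff hV x).1 hx
    have e : x ^ (q - 1) / algebraMap R F ϖ = x ^ (q - 2) * (x / algebraMap R F ϖ) := by
      have : q - 1 = q - 2 + 1 := by have := D.one_lt; omega
      rw [this, pow_succ, mul_div_assoc]
    rw [e]
    exact mul_mem (pow_mem (ValuationSubring.nonunits_subset hx) _) h1
  intro i
  fin_cases i
  · exact key _ D.gauss0
  · intro x hx
    have h1 := D.unif_mid x hx
    have hT0 := D.T_ne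
    have e : x ^ (q - 1) / algebraMap R F ϖ = (x / (y - algebraMap F' F a)) ^ (q - 1)
        * ((y - algebraMap F' F a) ^ (q - 1) / algebraMap R F ϖ) := by
      rw [div_pow]
      field_simp
    rw [e]
    exact mul_mem (pow_mem h1 _) D.T_ram'
  · exact key _ D.gauss2

end Fermat.Agent.GT.Val
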