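import Fermat.Agent.GT.Val.Ind.Defs
import Fermat.Agent.GT.Val.Tower.Basic

/-! GT-VAL, layer Ind, file Scale: the scaling argument, and discreteness in algebraic extensions.

`ind_scale`.  Let `μ` be minimal with `ϖ^μ c_k ∈ 𝒪'` for all coefficients `c_k` of `P` (exists by `hdisc`
applied to `c_k⁻¹`).  If `μ ≥ 1` put `P' = ϖ^μ P`: `P'(y) / ϖ = ϖ^(μ-1) P(y) ∈ 𝒱 v`, so by `hind` all
`ϖ^(μ-1) c_k ∈ 𝒪'`, contradiction.

`disc_of_algebraic`.  `x ≠ 0` algebraic: `∑ a_k x^k = 0`, `a_0 ≠ 0`.  Choose `M` with `ϖ^M a_k ∈ 𝒪'`.  If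
`x / ϖ^m ∈ V` for all `m` then `ϖ^M a_0 / ϖ^m = - (x / ϖ^m) ∑_{k ≥ 1} ϖ^M a_k x^(k-1) ∈ V`, so
`∈ 𝒪'` for all `m`, contradiction with `hdisc`. -/

set_option autoImplicit false

namespace Fermat.Agent.GT.Val

open Fermat.Agent.GR.E Fermat.Agent.GS Fermat.Agent.GT

variable {R : Type*} [CommRing R] [IsDomain R] [IsDiscreteValuationRing R]
variable {F' F : Type*} [Field F'] [Field F] [Algebra R F'] [Algebra R F] [Algebra F' F]
  [IsScalarTower R F' F]
variable {ϖ : R}

omit [IsDomain R] [IsDiscreteValuationRing R] in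
theorem Scale_exists_pow_mul_mem {V : ValuationSubring F} (h : Disc ϖ V) (x : F) :
    ∃ m : ℕ, algebraMap R F ϖ ^ m * x ∈ V := by
  by_cases hx : x = 0
  · exact ⟨0, by rw [hx, mul_zero]; exact V.zero_mem⟩
  · obtain ⟨m, hm⟩ := h x⁻¹ (inv_ne_zero hx)
    refine ⟨m, ?_⟩
    have := (V.mem_or_inv_mem (x⁻¹ / algebraMap R F ϖ ^ m)).resolve_left hm
    rwa [inv_div, div_inv_eq_mul] at this

omit [IsDomain R] [IsDiscreteValuationRing R] in
theorem Scale_exists_pow_forall {𝒪' : ValuationSubring F'} (hG : GaussRing ϖ 𝒪')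
    (hdisc : Disc ϖ 𝒪') (P : Polynomial F') :
    ∃ μ : ℕ, ∀ k, algebraMap R F' ϖ ^ μ * P.coeff k ∈ 𝒪' := by
  choose m hm using fun k => Scale_exists_pow_mul_mem hdisc (P.coeff k)
  refine ⟨P.support.sup m, fun k => ?_⟩
  by_cases hk : k ∈ P.support
  · have hle : m k ≤ P.support.sup m := Finset.le_sup hk
    obtain ⟨j, hj⟩ := Nat.exists_eq_add_of_le hle
    rw [hj, add_comm, pow_add, mul_assoc]
    exact 𝒪'.mul_mem _ _ (𝒪'.pow_mem hG.mem _) (hm k)
  · rw [Polynomial.notMem_support_iff.1 hk, mul_zero]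
    exact 𝒪'.zero_mem

omit [IsDomain R] [IsDiscreteValuationRing R] [Algebra R F'] [Algebra R F]
  [IsScalarTower R F' F] in
theorem Scale_aeval_mem {𝒪' : ValuationSubring F'} {V : ValuationSubring F}
    (hV : ∀ c ∈ 𝒪', algebraMap F' F c ∈ V) {x : F} (hx : x ∈ V) (Q : Polynomial F')
    (hQ : ∀ k, Q.coeff k ∈ 𝒪') : Polynomial.aeval x Q ∈ V := by
  rw [Polynomial.aeval_eq_sum_range]
  refine V.toSubring.sum_mem fun k _ => ?_
  rw [Algebra.smul_def]
  exact V.mul_mem _ _ (hV _ (hQ k)) (V.pow_mem hx k)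

theorem ind_scale {κ : Type*} {𝒪' : ValuationSubring F'} (𝒱 : κ → ValuationSubring F)
    (hG : GaussRing ϖ 𝒪') (hdisc : Disc ϖ 𝒪') (hϖ : ∀ v, algebraMap R F ϖ ∈ 𝒱 v) (y : F) (d : ℕ)
    (hind : ∀ P : Polynomial F', P.natDegree < d → (∀ k, P.coeff k ∈ 𝒪') →
      (∀ v, Polynomial.aeval y P / algebraMap R F ϖ ∈ 𝒱 v) →
      ∀ k, P.coeff k / algebraMap R F' ϖ ∈ 𝒪')
    (P : Polynomial F') (hP : P.natDegree < d) (hz : ∀ v, Polynomial.aeval y P ∈ 𝒱 v) :
    ∀ k, P.coeff k ∈ 𝒪' := by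
  have h0' : algebraMap R F' ϖ ≠ 0 := hG.ne_zero
  have h0 : algebraMap R F ϖ ≠ 0 := by
    rw [IsScalarTower.algebraMap_apply R F' F]
    exact (map_ne_zero _).2 h0'
  have key : ∀ μ : ℕ, (∀ k, algebraMap R F' ϖ ^ μ * P.coeff k ∈ 𝒪') → ∀ k, P.coeff k ∈ 𝒪' := by
    intro μ
    induction μ with
    | zero =>
      intro h k
      simpa using h k
    | succ μ ih =>
      intro h
      apply ih
      have h1 := hind (Polynomial.C (algebraMap R F' ϖ ^ (μ + 1)) * P)
        (lt_of_le_of_lt (Polynomial.natDegree_C_mul_le _ _) hP)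
        (fun k => by rw [Polynomial.coeff_C_mul]; exact h k)
        (fun v => by
          rw [map_mul, Polynomial.aeval_C, map_pow, ← IsScalarTower.algebraMap_apply R F' F]
          have : algebraMap R F ϖ ^ (μ + 1) * Polynomial.aeval y P / algebraMap R F ϖ =
              algebraMap R F ϖ ^ μ * Polynomial.aeval y P := by
            field_simp
            ring
          rw [this]
          exact (𝒱 v).mul_mem _ _ ((𝒱 v).pow_mem (hϖ v) _) (hz v))
      intro k
      have h2 := h1 k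
      rw [Polynomial.coeff_C_mul] at h2
      have : algebraMap R F' ϖ ^ (μ + 1) * P.coeff k / algebraMap R F' ϖ =
          algebraMap R F' ϖ ^ μ * P.coeff k := by
        field_simp
        ring
      rwa [this] at h2
  obtain ⟨μ, hμ⟩ := Scale_exists_pow_forall hG hdisc P
  exact key μ hμ

theorem disc_of_algebraic {𝒪' : ValuationSubring F'} {V : ValuationSubring F}
    (hG : GaussRing ϖ 𝒪') (hdisc : Disc ϖ 𝒪')
    (hcomap : ∀ x : F', algebraMap F' F x ∈ V ↔ x ∈ 𝒪') (halg : Algebra.IsAlgebraic F' F) :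
    Disc ϖ V := by
  intro x hx
  by_contra hcon
  push_neg at hcon
  have h0' : algebraMap R F' ϖ ≠ 0 := hG.ne_zero
  have hxV : x ∈ V := by simpa using hcon 0
  have hint : IsIntegral F' x := (halg.isAlgebraic x).isIntegral
  have ha0 : (minpoly F' x).coeff 0 ≠ 0 := minpoly.coeff_zero_ne_zero hint hx
  obtain ⟨M, hM⟩ := Scale_exists_pow_forall hG hdisc (minpoly F' x).divX
  have hQ : Polynomial.aeval x (Polynomial.C (algebraMap R F' ϖ ^ M) * (minpoly F' x).divX) ∈ V :=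
    Scale_aeval_mem (fun c hc => (hcomap c).2 hc) hxV _
      (fun k => by rw [Polynomial.coeff_C_mul]; exact hM k)
  have hrel : algebraMap F' F ((minpoly F' x).coeff 0) =
      -(x * Polynomial.aeval x (minpoly F' x).divX) := by
    have h1 := minpoly.aeval F' x
    rw [← Polynomial.divX_mul_X_add (minpoly F' x), map_add, map_mul, Polynomial.aeval_X,
      Polynomial.aeval_C] at h1
    linear_combination h1
  obtain ⟨m, hm⟩ := hdisc (algebraMap R F' ϖ ^ M * (minpoly F' x).coeff 0)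
    (mul_ne_zero (pow_ne_zero _ h0') ha0)
  apply hm
  rw [← hcomap, map_div₀, map_mul, map_pow, map_pow, hrel,
    ← IsScalarTower.algebraMap_apply R F' F]
  rw [map_mul, Polynomial.aeval_C, map_pow, ← IsScalarTower.algebraMap_apply R F' F] at hQ
  have : algebraMap R F ϖ ^ M * -(x * Polynomial.aeval x (minpoly F' x).divX) /
      algebraMap R F ϖ ^ m = -((x / algebraMap R F ϖ ^ m) *
        (algebraMap R F ϖ ^ M * Polynomial.aeval x (minpoly F' x).divX)) := by
    ring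
  rw [this]
  exact V.neg_mem _ (V.mul_mem _ _ (hcon m) hQ)

/-- for every `x` some `ϖ ^ m * x` lies in `V`. -/
theorem Disc.exists_pow_mul_mem {V : ValuationSubring F} (h : Disc ϖ V) (x : F) :
    ∃ m : ℕ, algebraMap R F ϖ ^ m * x ∈ V := by
  exact Scale_exists_pow_mul_mem h x

end Fermat.Agent.GT.Val
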